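/-
S36, modular part, block THICK (chief helper124): thickness one at the crossing points, by the
ETA ROUTE.

`x = G(τ) / G(q τ)` is the modular unit of level `N0 q` (`Lib/EtaUnit/FK/Pack.lean`),
`z = α x`, `z' = q / z`.  Then `z z' / q = 1`, `z` is a unit of `V20`, `V11` (its expansion at `∞`
lies in `1 + t ℤ[[t]]`), and `w_q x = ± q / x` shows that `z` vanishes and `z'` is a unit on `V02`.
The two elements are integral over `ℤ[j]`, hence lie in every integrally closed ring containing `j`.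

This file: everything, from the integrality of `x`, `q / x` over `ℤ[j]` (hypotheses `hint`, `hint'`).
-/
import Fermat.Agent.Lib.EtaUnit.FK.Pack
import Fermat.Agent.S36.Mod.HalfInst.Unif
import Fermat.Agent.S36.Mod.Table.Comap
import Fermat.Agent.S36.Mod.InstDefs
import Fermat.Agent.BAD.Model.EtaInst.Val
import Fermat.Agent.BAD.Model.EtaInst.IntOver
import Fermat.Agent.BAD.Model.Inst
import Fermat.Agent.S36.BP.Loc.Basic
import Fermat.Agent.S36.BP.Base
import Fermat.Agent.S18.Chart.Const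

set_option autoImplicit false
set_option linter.unusedSectionVars false

noncomputable section

namespace Fermat.Agent.S36.Mod.Setup

open ModularCurve Fermat.Agent.S24 Fermat.Agent.S18 Fermat.Agent.S36.BP Fermat.Agent.BAD.Model
  Fermat.Agent.BAD.Model.EtaInst Fermat.Agent.Lib.EtaUnit

/-- The local ring of a chart at a closed point is integrally closed. -/
theorem thick_intClosed {K₀ F : Type*} [Field K₀] [Field F] [Algebra K₀ F]
    {A₀ : ValuationSubring K₀} {q : ℕ} {x : F} {R : Subring F} (hR : IsMPt A₀ q x R) :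
    ∀ y : F, IsIntegral R y → y ∈ R := by
  rcases hR with ⟨𝔫, h𝔫, -, rfl⟩ | ⟨𝔫, h𝔫, -, rfl⟩
  · exact mem_locSub_of_isIntegral (fun y hy => mem_chart_of_isIntegral_chart _ _ _ hy)
  · exact mem_locSub_of_isIntegral (fun y hy => mem_chart_of_isIntegral_chart _ _ _ hy)

variable {K K' : Type*} [Field K] [Field K'] [Algebra ℚ K] [Algebra ℚ K'] [Algebra K Kbar]
  [Algebra K' Kbar] (S : Setup K K') (haux : if S.q = 2 then 9 ∣ S.N0 else 4 ∣ S.N0)

/-- The modular unit `x = G(τ) / G(q τ)` of level `N0 q`. -/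
def thX : S.F1 := etaK K S.q S.N0 S.hq haux

theorem thX_ne_zero : S.thX haux ≠ 0 := etaK_ne_zero K S.q S.N0 S.hq haux

theorem thX_V1oo : S.V1oo.valuation (S.thX haux) = 1 :=
  Unif_valuation_eq_one (S.thX_ne_zero haux) (etaK_mem_val K S.q S.N0 S.hq haux S.B)
    (etaK_inv_mem_val K S.q S.N0 S.hq haux S.B)

theorem thick_val_eps {F : Type*} [Field F] (V : ValuationSubring F) :
    V.valuation ((eps S.q : ℤ) : F) = 1 := by
  rcases eps_eq S.hq with h | h
  · rw [h, Int.cast_one, map_one]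
  · rw [h, Int.cast_neg, Int.cast_one, Valuation.map_neg, map_one]

theorem thick_eps_ne_zero {F : Type*} [Field F] : ((eps S.q : ℤ) : F) ≠ 0 := by
  rcases eps_eq S.hq with h | h
  · rw [h, Int.cast_one]; exact one_ne_zero
  · rw [h, Int.cast_neg, Int.cast_one]; exact neg_ne_zero.2 one_ne_zero

theorem w1_thX : S.w1 (S.thX haux) =
    ((eps S.q : ℤ) : S.F1) * ((S.q : ℕ) : S.F1) * (S.thX haux)⁻¹ := by
  have h := wAL_etaK K S.q S.N0 S.hq haux S.coprime
  have h2 : algebraMap K (FK K (S.N0 * S.q)) (((eps S.q * S.q : ℤ) : K)) =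
      ((eps S.q : ℤ) : S.F1) * ((S.q : ℕ) : S.F1) := by
    rw [map_intCast]
    push_cast
    rfl
  rw [h2] at h
  exact h

theorem thick_q_ne_zero (N : ℕ) : ((S.q : ℕ) : FK K N) ≠ 0 := by
  have : CharZero K := algebraRat.charZero K
  have : CharZero (FK K N) := charZero_of_injective_algebraMap (algebraMap K (FK K N)).injective
  exact Nat.cast_ne_zero.2 S.hq.ne_zero

/-- `x` vanishes on the component `0` of level `N0 q`. -/
theorem thX_V10 : S.V10.valuation (S.thX haux) < 1 := by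
  rw [← S.V1oo_comap_w1, valuation_comap_lt_one]
  show S.V1oo.valuation (S.w1 (S.thX haux)) < 1
  rw [w1_thX, map_mul, map_mul, map_inv₀, thX_V1oo, thick_val_eps, one_mul, inv_one, mul_one]
  exact valuation_lt_one_of_isUnif S.isUnif_V1oo

/-- `q / x` is a unit of the component `0` of level `N0 q`. -/
theorem thX'_V10 : S.V10.valuation (((S.q : ℕ) : S.F1) * (S.thX haux)⁻¹) = 1 := by
  rw [← S.V1oo_comap_w1, valuation_comap_eq_one]
  show S.V1oo.valuation (S.w1 (((S.q : ℕ) : S.F1) * (S.thX haux)⁻¹)) = 1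
  rw [map_mul, map_inv₀, map_natCast, w1_thX]
  have hq := S.thick_q_ne_zero (S.N0 * S.q)
  have he : ((eps S.q : ℤ) : S.F1) ≠ 0 := S.thick_eps_ne_zero
  have hx := S.thX_ne_zero haux
  have e : ((S.q : ℕ) : S.F1) * (((eps S.q : ℤ) : S.F1) * ((S.q : ℕ) : S.F1) * (S.thX haux)⁻¹)⁻¹ =
      (((eps S.q : ℤ) : S.F1))⁻¹ * S.thX haux := by
    field_simp
  rw [e, map_mul, map_inv₀, thick_val_eps, thX_V1oo, inv_one, one_mul]

theorem thick_al0_jK : S.al0 (jK K S.N0) = jK K (S.N0 * S.q) := Subtype.ext (S.coe_al0 _)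

theorem thick_ia_j0 : S.ia S.j0 = S.al1 (jK K (S.N0 * S.q)) := by
  rw [← thick_al0_jK]; rfl

/-- **(THICK)** from the integrality of `x` and `q / x` over `ℤ[j]`. -/
theorem thick_of_intOver (D : BaseData S.N0 S.q)
    (hint : IntOver (jK K (S.N0 * S.q)) (S.thX haux))
    (hint' : IntOver (jK K (S.N0 * S.q)) (((S.q : ℕ) : S.F1) * (S.thX haux)⁻¹)) :
    ∀ R : Subring S.F2, IsMPt S.B S.q (S.ia (D.xK K)) R → S.ia S.j0 ∈ R →
    (∀ c, Through R (S.VV c)) →
    ∃ z z' : S.F2, z ∈ R ∧ z' ∈ R ∧ RUnit R (z * z' / ((S.q : ℕ) : S.F2)) ∧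
      (S.VV 2).valuation z < 1 ∧ (S.VV 2).valuation z' = 1 ∧ (S.VV 0).valuation z = 1 ∧
      (S.VV 1).valuation z = 1 := by
  intro R hR hj _
  have hcl := thick_intClosed hR
  have hx := S.thX_ne_zero haux
  have hq2 := S.thick_q_ne_zero (S.N0 * S.q * S.q)
  refine ⟨S.al1 (S.thX haux), S.al1 (((S.q : ℕ) : S.F1) * (S.thX haux)⁻¹), ?_, ?_, ?_, ?_, ?_, ?_,
    ?_⟩
  · refine IntOver.mem hcl hj ?_
    rw [thick_ia_j0]
    exact hint.map (S.al1 : S.F1 →+* S.F2)
  · refine IntOver.mem hcl hj ?_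
    rw [thick_ia_j0]
    exact hint'.map (S.al1 : S.F1 →+* S.F2)
  · have e : S.al1 (S.thX haux) * S.al1 (((S.q : ℕ) : S.F1) * (S.thX haux)⁻¹) /
        ((S.q : ℕ) : S.F2) = 1 := by
      rw [← map_mul, mul_left_comm, mul_inv_cancel₀ hx, mul_one, map_natCast, div_self hq2]
    rw [e]
    exact ⟨one_ne_zero, R.one_mem, by rw [inv_one]; exact R.one_mem⟩
  · show S.V02.valuation (S.al1.toRingHom (S.thX haux)) < 1
    rw [← valuation_comap_lt_one, V02_comap_al1]
    exact S.thX_V10 haux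
  · show S.V02.valuation (S.al1.toRingHom (((S.q : ℕ) : S.F1) * (S.thX haux)⁻¹)) = 1
    rw [← valuation_comap_eq_one, V02_comap_al1]
    exact S.thX'_V10 haux
  · show S.V20.valuation (S.al1.toRingHom (S.thX haux)) = 1
    rw [← valuation_comap_eq_one, V20_comap_al1]
    exact S.thX_V1oo haux
  · show S.V11.valuation (S.al1.toRingHom (S.thX haux)) = 1
    rw [← valuation_comap_eq_one, V11_comap_al1]
    exact S.thX_V1oo haux

end Fermat.Agent.S36.Mod.Setup

end
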