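/-
S36, modular part, block THICK (chief helper124): **thickness one at the crossing points**
(the field `thick` of `BAD.Model.InstData`), by the eta route.

`z = α x`, `z' = q / z`, `x = G(τ) / G(q τ)` the modular unit of level `N0 q`.
Integrality of `x`, `q / x` over `ℤ[j]`: `BAD/Model/EtaInst/UnitInt.lean` (over `ℚ̄`), descended to `K`.
-/
import Fermat.Agent.S36.Mod.Thick.Eta
import Fermat.Agent.BAD.Model.EtaInst.UnitInt

set_option autoImplicit false
set_option linter.unusedSectionVars false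

noncomputable section

namespace Fermat.Agent.S36.Mod.Setup

open ModularCurve Fermat.Agent.S24 Fermat.Agent.S18 Fermat.Agent.S18.Descent Fermat.Agent.S36.BP
  Fermat.Agent.BAD.Model Fermat.Agent.BAD.Model.EtaInst Fermat.Agent.Lib.EtaUnit

/-- integrality over `ℤ[j]` of the unit attached to one of the two packs. -/
theorem thick_intOver_pack_aux (P : W1Pack)
    (hP : P = ⟨9, chi3, G9, G9s, isW1_G9⟩ ∨ P = ⟨4, chi4, G4, G4s, isW1_G4⟩)
    (N q : ℕ) [NeZero N] [NeZero q] (hm : Nat.Coprime q P.a) (hN : P.a * q ∣ N) :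
    IntOver (jF N) (unitF P.h q N hm hN) ∧
      IntOver (jF N) (((q : ℕ) : FN N) * (unitF P.h q N hm hN)⁻¹) := by
  rcases hP with rfl | rfl
  · exact intOver_unitF9 N q hm hN
  · exact intOver_unitF4 N q hm hN

theorem thick_pack_cases (q : ℕ) :
    pack q = ⟨9, chi3, G9, G9s, isW1_G9⟩ ∨ pack q = ⟨4, chi4, G4, G4s, isW1_G4⟩ := by
  unfold pack
  split_ifs
  · exact Or.inl rfl
  · exact Or.inr rfl

variable {K K' : Type*} [Field K] [Field K'] [Algebra ℚ K] [Algebra ℚ K'] [Algebra K Kbar]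
  [Algebra K' Kbar] (S : Setup K K') (haux : if S.q = 2 then 9 ∣ S.N0 else 4 ∣ S.N0)

/-- `x` and `q / x` are integral over `ℤ[j]`. -/
theorem thX_intOver : IntOver (jK K (S.N0 * S.q)) (S.thX haux) ∧
    IntOver (jK K (S.N0 * S.q)) (((S.q : ℕ) : S.F1) * (S.thX haux)⁻¹) := by
  obtain ⟨h1, h2⟩ := thick_intOver_pack_aux (pack S.q) (thick_pack_cases S.q) (S.N0 * S.q) S.q
    (pack_coprime S.hq) (Nat.mul_dvd_mul_right (pack_dvd haux) S.q)
  have hinj := baseChangeMap_injective (F₀ := modularFunctionFieldFull (S.N0 * S.q))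
    (algebraMap K Kbar)
  have hx : baseChangeMap (modularFunctionFieldFull (S.N0 * S.q)) (algebraMap K Kbar)
      (S.thX haux) = unitF (pack S.q).h S.q (S.N0 * S.q) (pack_coprime S.hq)
        (Nat.mul_dvd_mul_right (pack_dvd haux) S.q) := by
    rw [thX, etaK, baseChangeMap_unitK, unitK_bar]
  constructor
  · refine IntOver.of_map _ hinj ?_
    rw [baseChangeMap_jK_bar, hx]
    exact h1
  · refine IntOver.of_map _ hinj ?_
    rw [baseChangeMap_jK_bar, map_mul, map_inv₀, map_natCast, hx]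
    exact h2

/-- **(THICK)** thickness one at the crossing points. -/
theorem thick (D : BaseData S.N0 S.q) (haux : if S.q = 2 then 9 ∣ S.N0 else 4 ∣ S.N0) :
    ∀ R : Subring S.F2, IsMPt S.B S.q (S.ia (D.xK K)) R → S.ia S.j0 ∈ R →
    (∀ c, Through R (S.VV c)) →
    ∃ z z' : S.F2, z ∈ R ∧ z' ∈ R ∧ RUnit R (z * z' / ((S.q : ℕ) : S.F2)) ∧
      (S.VV 2).valuation z < 1 ∧ (S.VV 2).valuation z' = 1 ∧ (S.VV 0).valuation z = 1 ∧
      (S.VV 1).valuation z = 1 :=
  S.thick_of_intOver haux D (S.thX_intOver haux).1 (S.thX_intOver haux).2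

end Fermat.Agent.S36.Mod.Setup

end
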